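import Mathlib
import Fermat.Prelude.Def_CuspForm_HeckeAlgebra
import Fermat.Prelude.Def_CuspForm_IntegralStructure
import Fermat.Prelude.Thm_CuspForm_intLattice_fg
import Fermat.Prelude.Thm_CuspForm_mem_intLattice_of_mem_heckeAlgebra
import Fermat.Prelude.Thm_ModularForm_sturm_bound_Gamma0
import Fermat.Prelude.Thm_CongruenceSubgroup_one_mem_strictPeriods_Gamma0

/-!
# S22 from an integral structure (conditional glue lemma)

If `S_k(Γ₀(N))` is spanned over `ℂ` by forms with integral `q`-expansion (for `k ≥ 1`), then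
the Hecke algebra is a finitely generated `ℤ`-module: it embeds into the endomorphisms of the
finitely generated lattice `CuspForm.intLattice N k`.  For `k ≤ 0` there are no nonzero cusp
forms.
-/

set_option autoImplicit false

namespace Fermat.Agent.S22viaS23

open CuspForm ModularFormClass UpperHalfPlane ModularForm

/-- Cusp forms of weight `≤ 0` on `Γ₀(N)` vanish (Sturm bound). -/
theorem cuspForm_eq_zero_of_weight_nonpos (N : ℕ) [NeZero N] {k : ℤ} (hk : k ≤ 0)
    (f : CuspForm (CongruenceSubgroup.Gamma0 N) k) : f = 0 := by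
  have h1 : (1 : ℝ) ∈ (Subgroup.map (Matrix.SpecialLinearGroup.mapGL ℝ)
      (CongruenceSubgroup.Gamma0 N)).strictPeriods :=
    CongruenceSubgroup.one_mem_strictPeriods_Gamma0 N
  have hf0 : (qExpansion 1 f).coeff 0 = 0 :=
    CuspFormClass.qExpansion_coeff_zero f one_pos h1
  have hidx : (k * ((CongruenceSubgroup.Gamma0 N).index : ℤ)).toNat / 12 = 0 := by
    have hle : k * ((CongruenceSubgroup.Gamma0 N).index : ℤ) ≤ 0 :=
      mul_nonpos_of_nonpos_of_nonneg hk (Int.natCast_nonneg _)
    rw [Int.toNat_of_nonpos hle]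
  have key : (CuspForm.toModularFormₗ f) = 0 := by
    apply ModularForm.sturm_bound_Gamma0 N
    intro n hn
    rw [hidx] at hn
    have hn0 : n = 0 := by omega
    subst hn0
    exact hf0
  exact CuspForm.toModularFormₗ_injective (by rw [key, _root_.map_zero])

/-- The restriction of a Hecke operator to the integral lattice, as a `ℤ`-linear map
`𝕋 → End_ℤ(L)`. -/
noncomputable def latticeRestrictₗ (N : ℕ) [NeZero N] (k : ℤ) (hk : 1 ≤ k) (S : Set ℕ) :
    ↥(CuspForm.heckeAlgebra N k S) →ₗ[ℤ] Module.End ℤ ↥(CuspForm.intLattice N k) where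
  toFun t := LinearMap.restrict ((t : Module.End ℂ
      (CuspForm (CongruenceSubgroup.Gamma0 N) k)).restrictScalars ℤ)
    (fun _f hf => CuspForm.mem_intLattice_of_mem_heckeAlgebra hk t.2 hf)
  map_add' _ _ := LinearMap.ext fun _ => Subtype.ext rfl
  map_smul' _ _ := LinearMap.ext fun _ => Subtype.ext rfl

theorem latticeRestrictₗ_injective (N : ℕ) [NeZero N] (k : ℤ) (hk : 1 ≤ k) (S : Set ℕ)
    (hint : CuspForm.HasIntegralStructure N k) :
    Function.Injective (latticeRestrictₗ N k hk S) := by
  rw [← LinearMap.ker_eq_bot, LinearMap.ker_eq_bot']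
  intro t ht
  refine Subtype.ext (LinearMap.ext_on hint fun f hf => ?_)
  exact congrArg Subtype.val (LinearMap.congr_fun ht ⟨f, hf⟩)

/-- **S22 from the integral structure.**  If `S_k(Γ₀(N))` has an integral structure for every
`k ≥ 1`, the Hecke algebra is a finitely generated `ℤ`-module. -/
theorem heckeAlgebra_finite_of_integral (N : ℕ) [NeZero N] (k : ℤ) (S : Set ℕ)
    (h : 1 ≤ k → CuspForm.HasIntegralStructure N k) :
    Module.Finite ℤ (CuspForm.heckeAlgebra N k S) := by
  rcases le_or_gt 1 k with hk | hk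
  · -- `k ≥ 1`: embed into the endomorphisms of the lattice
    have : Module.Finite ℤ ↥(CuspForm.intLattice N k) :=
      Module.Finite.iff_fg.mpr (CuspForm.intLattice_fg N k)
    have : IsAddTorsionFree (CuspForm (CongruenceSubgroup.Gamma0 N) k) :=
      .of_isTorsionFree ℂ _
    have : Module.Free ℤ ↥(CuspForm.intLattice N k) := Module.free_of_finite_type_torsion_free'
    exact Module.Finite.of_injective (latticeRestrictₗ N k hk S)
      (latticeRestrictₗ_injective N k hk S (h hk))
  · -- `k ≤ 0`: no cusp forms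
    have hk0 : k ≤ 0 := by omega
    have : Subsingleton (CuspForm (CongruenceSubgroup.Gamma0 N) k) :=
      ⟨fun f g => by
        rw [cuspForm_eq_zero_of_weight_nonpos N hk0 f, cuspForm_eq_zero_of_weight_nonpos N hk0 g]⟩
    have : Subsingleton (Module.End ℂ (CuspForm (CongruenceSubgroup.Gamma0 N) k)) :=
      ⟨fun a b => LinearMap.ext fun x => Subsingleton.elim _ _⟩
    have : Subsingleton ↥(CuspForm.heckeAlgebra N k S) :=
      ⟨fun a b => Subtype.ext (Subsingleton.elim _ _)⟩
    exact Module.Finite.of_surjective (0 : ℤ →ₗ[ℤ] ↥(CuspForm.heckeAlgebra N k S))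
      fun y => ⟨0, Subsingleton.elim _ _⟩

end Fermat.Agent.S22viaS23
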